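import Fermat.Agent.LT.A2.WeilLocal

/-!
# Row LT, tower A2, station `WeilLocalC`, leaf A2.03.5 WHIT-CONT (helper971)

OFF-MAIN.  Spec: `LT/A2/WeilLocal.lean` (origin/helper950@17cdc7aa9, sha256 47318b3b2f2c1a81),
byte-identical copy.  This file PROVES the leaf

    WL.WhitContC                                             (`whitContC971`)

The Whittaker function `W` of standard good data is continuous:

* `GL₂(𝔸_K)⁺` is open (`TorusOpenC` with `V = univ`) and closed (it is stable under
  multiplication, contains a neighbourhood of `1`, and `GL₂(𝔸_K)` is a topological group);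
  `W = 0` outside `GL₂(𝔸_K)⁺`;
* the orbital integral `Φ(g, m) = ∫_{T¹} F g (m' m) (1, 0) χT(m' m) dm'` is continuous on the set
  of the admissible pairs: dominated convergence along the (countably generated) filter
  `𝓝[Adm] (g₀, m₀)`, with the domination `orb_dom` on a compact neighbourhood, the continuity
  `IsRegular.cont_pair` of the family, the continuity of `χT` on the torus and `|χT| = 1`;
* the first projection of the set of admissible pairs is open (`TorusOpenC`), and `W(g) = Φ(g, m)`
  for every admissible pair.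

Used from `T1Out`: `GL₂(𝔸_K)` is locally compact and second countable, `𝔸_K` is Hausdorff.
No `sorry`, nothing assumed.
-/

set_option autoImplicit false

open IsDedekindDomain NumberField AutomorphicForm MeasureTheory Filter
open scoped MatrixGroups Topology

noncomputable section

namespace Fermat.Agent.LT.A2.H971

open Fermat.Agent.LT.H130 Fermat.Agent.LT.H556 Fermat.Agent.LT.A2

variable {K : Type} [Field K] [NumberField K]

/-! ## The torus -/

/-- The product of two matrices of the torus. -/
theorem torMat_mul971 {R : Type*} [CommRing R] (t n a b a' b' : R) :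
    torMat t n a b * torMat t n a' b'
      = torMat t n (a * a' - n * b * b') (a * b' + b * a' + t * b * b') := by
  ext i j
  fin_cases i <;> fin_cases j <;>
    simp [torMat, Matrix.mul_apply, Fin.sum_univ_two] <;> ring

/-- The torus is stable under multiplication. -/
theorem inTorus_mul971 {t n : K} {m m' : A0.G K} (h : InTorus t n m) (h' : InTorus t n m') :
    InTorus t n (m * m') := by
  obtain ⟨a, b, hm⟩ := h
  obtain ⟨a', b', hm'⟩ := h'
  refine ⟨a * a' - algebraMap K (A0.Adl K) n * b * b',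
    a * b' + b * a' + algebraMap K (A0.Adl K) t * b * b', ?_⟩
  rw [Units.val_mul, hm, hm', torMat_mul971]

/-- The identity is in the torus. -/
theorem inTorus_one971 (t n : K) : InTorus t n (1 : A0.G K) := by
  refine ⟨1, 0, ?_⟩
  ext i j
  fin_cases i <;> fin_cases j <;> simp [torMat]

/-- `(1, 1)` is admissible. -/
theorem adm_one971 (t n : K) : Adm t n (1 : A0.G K) 1 := ⟨inTorus_one971 t n, rfl⟩

/-- Admissible pairs can be multiplied. -/
theorem adm_mul971 {t n : K} {g g' m m' : A0.G K} (h : Adm t n g m) (h' : Adm t n g' m') :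
    Adm t n (g * g') (m * m') :=
  ⟨inTorus_mul971 h.1 h'.1, by rw [map_mul, map_mul, h.2, h'.2]⟩

/-- `GL₂(𝔸_K)⁺` is stable under multiplication. -/
theorem inGPlus_mul971 {t n : K} {g g' : A0.G K} (h : InGPlus t n g) (h' : InGPlus t n g') :
    InGPlus t n (g * g') := by
  obtain ⟨m, hm⟩ := h
  obtain ⟨m', hm'⟩ := h'
  exact ⟨m * m', adm_mul971 hm hm'⟩

/-- Translation of an admissible pair by the norm-one torus. -/
theorem adm_torus1_mul971 {t n : K} {g m m' : A0.G K} (h' : InTorus1 t n m') (h : Adm t n g m) :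
    Adm t n g (m' * m) :=
  ⟨inTorus_mul971 h'.1 h.1, by rw [map_mul, h'.2, one_mul, h.2]⟩

/-- The torus in equations. -/
theorem inTorus_iff971 (t n : K) (m : A0.G K) :
    InTorus t n m ↔
      (m : Matrix (Fin 2) (Fin 2) (A0.Adl K)) 0 1
          = -(algebraMap K (A0.Adl K) n * (m : Matrix (Fin 2) (Fin 2) (A0.Adl K)) 1 0) ∧
        (m : Matrix (Fin 2) (Fin 2) (A0.Adl K)) 1 1
          = (m : Matrix (Fin 2) (Fin 2) (A0.Adl K)) 0 0
            + algebraMap K (A0.Adl K) t * (m : Matrix (Fin 2) (Fin 2) (A0.Adl K)) 1 0 := by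
  constructor
  · rintro ⟨a, b, h⟩
    rw [h]
    simp [torMat]
  · rintro ⟨h1, h2⟩
    refine ⟨(m : Matrix (Fin 2) (Fin 2) (A0.Adl K)) 0 0,
      (m : Matrix (Fin 2) (Fin 2) (A0.Adl K)) 1 0, ?_⟩
    ext i j
    fin_cases i <;> fin_cases j <;> simp [torMat, h1, h2]

/-- The entries are continuous on `GL₂(𝔸_K)`. -/
theorem continuous_entry971 (i j : Fin 2) :
    Continuous fun m : A0.G K => (m : Matrix (Fin 2) (Fin 2) (A0.Adl K)) i j :=
  Units.continuous_val.matrix_elem i j

/-- The torus is closed. -/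
theorem isClosed_inTorus971 [T2Space (A0.Adl K)] (t n : K) :
    IsClosed {m : A0.G K | InTorus t n m} := by
  have h : {m : A0.G K | InTorus t n m}
      = {m : A0.G K | (m : Matrix (Fin 2) (Fin 2) (A0.Adl K)) 0 1
          = -(algebraMap K (A0.Adl K) n * (m : Matrix (Fin 2) (Fin 2) (A0.Adl K)) 1 0)} ∩
        {m : A0.G K | (m : Matrix (Fin 2) (Fin 2) (A0.Adl K)) 1 1
          = (m : Matrix (Fin 2) (Fin 2) (A0.Adl K)) 0 0
            + algebraMap K (A0.Adl K) t * (m : Matrix (Fin 2) (Fin 2) (A0.Adl K)) 1 0} := by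
    ext m
    exact inTorus_iff971 t n m
  rw [h]
  refine IsClosed.inter ?_ ?_
  · exact isClosed_eq (continuous_entry971 0 1)
      (continuous_const.mul (continuous_entry971 1 0)).neg
  · exact isClosed_eq (continuous_entry971 1 1)
      ((continuous_entry971 0 0).add (continuous_const.mul (continuous_entry971 1 0)))

/-- The norm-one torus is closed. -/
theorem isClosed_inTorus1_971 [T2Space (A0.Adl K)] (t n : K) :
    IsClosed {m : A0.G K | InTorus1 t n m} := by
  have h : {m : A0.G K | InTorus1 t n m}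
      = {m : A0.G K | InTorus t n m} ∩
        {m : A0.G K | (m : Matrix (Fin 2) (Fin 2) (A0.Adl K)).det = 1} := by
    ext m
    simp only [Set.mem_ofPred_eq, Set.mem_inter_iff, InTorus1]
    refine and_congr_right fun _ => ?_
    rw [Units.ext_iff, Matrix.GeneralLinearGroup.val_det_apply, Units.val_one]
  rw [h]
  exact (isClosed_inTorus971 t n).inter
    (isClosed_eq (Units.continuous_val.matrix_det) continuous_const)

/-- A torus character has absolute value `1` on the torus. -/
theorem norm_torusChar971 {t n : K} {χT : A0.G K → ℂ} (hχ : IsTorusChar t n χT) {m : A0.G K}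
    (hm : InTorus t n m) : ‖χT m‖ = 1 := by
  obtain ⟨k, hk, hpow⟩ := hχ.fin_order
  exact Complex.norm_eq_one_of_pow_eq_one (hpow m hm) hk.ne'

/-! ## The orbital integral is continuous on the admissible pairs -/

/-- **Continuity of the orbital integral** on the set of the admissible pairs. -/
theorem orbital_continuousWithinAt971 (D : KData K) (η : (A0.Adl K)ˣ → ℂ) (hT1 : T1.T1Out K)
    (hgood : D.Good) (hstd : WL.IsStd D η) (p₀ : A0.G K × A0.G K)
    (hp₀ : Adm D.t D.n p₀.1 p₀.2) :
    ContinuousWithinAt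
      (fun p : A0.G K × A0.G K => D.intT {m | InTorus1 D.t D.n m}
        (fun m => D.F p.1 (m * p.2) (1, 0) * D.χT (m * p.2)))
      {p : A0.G K × A0.G K | Adm D.t D.n p.1 p.2} p₀ := by
  obtain ⟨⟨_, hT2A, _⟩, hLC, hT2G, hSC⟩ := hT1.locComp
  have := hT2A
  have := hLC
  have := hT2G
  have := hSC
  let _ : MeasurableSpace (A0.G K) := borel (A0.G K)
  have : BorelSpace (A0.G K) := ⟨rfl⟩
  obtain ⟨C, hC, hCn⟩ := exists_compact_mem_nhds p₀
  obtain ⟨h, hint, hbound⟩ := hstd.orb_dom C hC
  have hmeas : MeasurableSet {m : A0.G K | InTorus1 D.t D.n m} :=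
    (isClosed_inTorus1_971 D.t D.n).measurableSet
  have hcp := hgood.regular.cont_pair (1, 0)
  have hχc := hgood.torus.cont
  -- continuity in the torus variable
  have hF1 : ∀ p : A0.G K × A0.G K, Adm D.t D.n p.1 p.2 →
      ContinuousOn (fun m : A0.G K => D.F p.1 (m * p.2) (1, 0)) {m | InTorus1 D.t D.n m} := by
    intro p hp
    have hmap : Set.MapsTo (fun m : A0.G K => ((p.1, m * p.2) : A0.G K × A0.G K))
        {m | InTorus1 D.t D.n m} {q : A0.G K × A0.G K | Adm D.t D.n q.1 q.2} :=
      fun m hm => adm_torus1_mul971 hm hp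
    have hc : Continuous (fun m : A0.G K => ((p.1, m * p.2) : A0.G K × A0.G K)) :=
      continuous_const.prodMk (continuous_id.mul continuous_const)
    exact hcp.comp hc.continuousOn hmap
  have hχ1 : ∀ p : A0.G K × A0.G K, Adm D.t D.n p.1 p.2 →
      ContinuousOn (fun m : A0.G K => D.χT (m * p.2)) {m | InTorus1 D.t D.n m} := by
    intro p hp
    have hmap : Set.MapsTo (fun m : A0.G K => m * p.2)
        {m | InTorus1 D.t D.n m} {m | InTorus D.t D.n m} :=
      fun m hm => inTorus_mul971 hm.1 hp.1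
    have hc : Continuous (fun m : A0.G K => m * p.2) := continuous_id.mul continuous_const
    exact hχc.comp hc.continuousOn hmap
  -- continuity in the pair
  have hF2 : ∀ m : A0.G K, InTorus1 D.t D.n m →
      ContinuousOn (fun p : A0.G K × A0.G K => D.F p.1 (m * p.2) (1, 0))
        {p : A0.G K × A0.G K | Adm D.t D.n p.1 p.2} := by
    intro m hm
    have hmap : Set.MapsTo (fun p : A0.G K × A0.G K => ((p.1, m * p.2) : A0.G K × A0.G K))
        {p : A0.G K × A0.G K | Adm D.t D.n p.1 p.2}
        {q : A0.G K × A0.G K | Adm D.t D.n q.1 q.2} :=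
      fun p hp => adm_torus1_mul971 hm hp
    have hc : Continuous (fun p : A0.G K × A0.G K => ((p.1, m * p.2) : A0.G K × A0.G K)) :=
      continuous_fst.prodMk (continuous_const.mul continuous_snd)
    exact hcp.comp hc.continuousOn hmap
  have hχ2 : ∀ m : A0.G K, InTorus1 D.t D.n m →
      ContinuousOn (fun p : A0.G K × A0.G K => D.χT (m * p.2))
        {p : A0.G K × A0.G K | Adm D.t D.n p.1 p.2} := by
    intro m hm
    have hmap : Set.MapsTo (fun p : A0.G K × A0.G K => m * p.2)
        {p : A0.G K × A0.G K | Adm D.t D.n p.1 p.2} {m | InTorus D.t D.n m} :=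
      fun p hp => inTorus_mul971 hm.1 hp.1
    have hc : Continuous (fun p : A0.G K × A0.G K => m * p.2) :=
      continuous_const.mul continuous_snd
    exact hχc.comp hc.continuousOn hmap
  -- dominated convergence
  show Tendsto
    (fun p : A0.G K × A0.G K =>
      ∫ m in {m | InTorus1 D.t D.n m}, D.F p.1 (m * p.2) (1, 0) * D.χT (m * p.2) ∂D.μT)
    (𝓝[{p : A0.G K × A0.G K | Adm D.t D.n p.1 p.2}] p₀)
    (𝓝 (∫ m in {m | InTorus1 D.t D.n m}, D.F p₀.1 (m * p₀.2) (1, 0) * D.χT (m * p₀.2) ∂D.μT))
  refine tendsto_integral_filter_of_dominated_convergence h ?_ ?_ hint ?_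
  · filter_upwards [self_mem_nhdsWithin] with p hp
    exact ((hF1 p hp).mul (hχ1 p hp)).aestronglyMeasurable hmeas
  · filter_upwards [self_mem_nhdsWithin, mem_nhdsWithin_of_mem_nhds hCn] with p hp hpC
    refine (ae_restrict_iff' hmeas).2 (Eventually.of_forall fun m hm => ?_)
    rw [norm_mul, norm_torusChar971 hgood.torus (inTorus_mul971 hm.1 hp.1), mul_one]
    exact hbound p hpC hp m hm
  · refine (ae_restrict_iff' hmeas).2 (Eventually.of_forall fun m hm => ?_)
    exact ((hF2 m hm) p₀ hp₀).mul ((hχ2 m hm) p₀ hp₀)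

/-! ## The leaf -/

/-- **A2.03.5 WHIT-CONT**: the Whittaker function of standard good data is continuous. -/
theorem whitContC971 : WL.WhitContC := by
  intro hopen K _ _ D η hT1 hgood hstd W hW
  rw [continuous_iff_continuousAt]
  intro g₀
  by_cases hg₀ : InGPlus D.t D.n g₀
  · obtain ⟨m₀, hadm⟩ := hg₀
    have hΦ := orbital_continuousWithinAt971 D η hT1 hgood hstd (g₀, m₀) hadm
    rw [ContinuousAt, hW.formula g₀ m₀ hadm]
    intro N hN
    have h1 := hΦ hN
    rw [Filter.mem_map, mem_nhdsWithin_iff_exists_mem_nhds_inter] at h1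
    obtain ⟨O, hO, hOsub⟩ := h1
    rw [mem_nhds_prod_iff] at hO
    obtain ⟨U₁, hU₁, V, hV, hUV⟩ := hO
    obtain ⟨U, hU, hUprop⟩ := hopen K D.t D.n hgood.torus.irred g₀ m₀ hadm V hV
    rw [Filter.mem_map]
    filter_upwards [hU, hU₁] with g hgU hgU₁
    obtain ⟨m, hmV, hgm⟩ := hUprop g hgU
    have hmem : ((g, m) : A0.G K × A0.G K)
        ∈ O ∩ {p : A0.G K × A0.G K | Adm D.t D.n p.1 p.2} :=
      ⟨hUV (Set.mk_mem_prod hgU₁ hmV), hgm⟩
    have h2 := hOsub hmem
    show W g ∈ N
    rw [hW.formula g m hgm]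
    exact h2
  · obtain ⟨U, hU, hUprop⟩ :=
      hopen K D.t D.n hgood.torus.irred 1 1 (adm_one971 D.t D.n) Set.univ univ_mem
    have hnear : ∀ᶠ g in 𝓝 g₀, ¬ InGPlus D.t D.n g := by
      have hcont : ContinuousAt (fun g : A0.G K => g⁻¹ * g₀) g₀ :=
        (continuous_inv.mul continuous_const).continuousAt
      have hpre : (fun g : A0.G K => g⁻¹ * g₀) ⁻¹' U ∈ 𝓝 g₀ :=
        hcont.preimage_mem_nhds (by simpa using hU)
      filter_upwards [hpre] with g hg hgplus
      obtain ⟨m, -, hm⟩ := hUprop _ hg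
      have h3 := inGPlus_mul971 hgplus ⟨m, hm⟩
      rw [mul_inv_cancel_left] at h3
      exact hg₀ h3
    have hev : W =ᶠ[𝓝 g₀] fun _ => (0 : ℂ) := hnear.mono fun g hg => hW.off g hg
    exact continuousAt_const.congr hev.symm

end Fermat.Agent.LT.A2.H971

end

#print axioms Fermat.Agent.LT.A2.H971.whitContC971
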